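/-
P-SS / row 1050 SSH-19 LEVELREG-CHART (helper9): the chart facts for the relations
`j t₂² = (t₂ + 256)³` and `j t₃³ = (t₃ + 27)(t₃ + 243)³` (Mathlib + chart language).

For `x T : E` with `x * T ^ 2 = (T + 256) ^ 3` and `256` invertible in `A`:
`T ∈ B(x)`, `T⁻¹ ∈ B(x)`, `T ≠ 0`, `T ^ 2 * x ∈ B(T)`; same for the relation of level `3` with
`27` invertible in `A`.  Hence REG in the chart `T` implies REG in the chart `x`
(`regChart_of_rel_two`, `regChart_of_rel_three`).
-/
import Mathlib
import Fermat.Agent.H9.SS.ChartChangeAbs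

set_option autoImplicit false

noncomputable section

namespace Fermat.Agent.H9.SS

open Polynomial
open Fermat.Agent.H22.KL

section Units

/-- In a local ring, if `q` is not a unit and `m` is prime to `q` then `m` is a unit. -/
theorem lrc_isUnit_natCast_of_coprime {A : Type*} [CommRing A] [IsLocalRing A] {q m : ℕ}
    (h : Nat.Coprime q m) (hq : ¬ IsUnit ((q : ℕ) : A)) : IsUnit ((m : ℕ) : A) := by
  have hb := Int.gcd_eq_gcd_ab (q : ℤ) (m : ℤ)
  have hg : Int.gcd (q : ℤ) (m : ℤ) = 1 := by
    rw [Int.gcd_natCast_natCast]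
    exact h
  rw [hg] at hb
  have hA : ((q : ℕ) : A) * ((Int.gcdA q m : ℤ) : A) + ((m : ℕ) : A) * ((Int.gcdB q m : ℤ) : A)
      = 1 := by
    have := congrArg (Int.cast : ℤ → A) hb
    push_cast at this
    exact this.symm
  rcases IsLocalRing.isUnit_or_isUnit_of_add_one hA with h1 | h1
  · exact absurd (isUnit_of_mul_isUnit_left h1) hq
  · exact isUnit_of_mul_isUnit_left h1

end Units

section Rel

variable {A : Type} [CommRing A] {E : Type} [Field E] [Algebra A E]

/-- a monic polynomial over `A[x]` vanishing at `T` -/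
theorem lrc_mem_chartClosure_of_root (x T : E) (P : Polynomial (chartRing A E x)) (hP : P.Monic)
    (h : Polynomial.eval₂ (algebraMap (chartRing A E x) E) T P = 0) :
    T ∈ chartClosure A E x :=
  (lrc_mem_chartClosure_iff x T).2 ⟨P, hP, h⟩

theorem lrc_algebraMap_mem_chartRing (x : E) (a : A) : algebraMap A E a ∈ chartRing A E x :=
  (chartRing A E x).algebraMap_mem a

/-- a monic polynomial of the shape `p - q`, `deg q < deg p`, `p` a product of `X + C a` -/
theorem lrc_monic_sub {R : Type*} [CommRing R] [Nontrivial R] {p q : Polynomial R} (hp : p.Monic)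
    {n m : ℕ} (hpn : p.natDegree = n) (hqm : q.natDegree ≤ m) (hmn : m < n) :
    (p - q).Monic := by
  refine Polynomial.Monic.sub_of_left hp ?_
  rw [Polynomial.degree_eq_natDegree hp.ne_zero, hpn]
  refine lt_of_le_of_lt Polynomial.degree_le_natDegree ?_
  exact_mod_cast lt_of_le_of_lt hqm hmn

/-! ### level 2 -/

/-- `T ∈ B(x)` from `x T² = (T + 256)³`. -/
theorem lrc_two_mem {x T : E} (hrel : x * T ^ 2 = (T + 256) ^ 3) : T ∈ chartClosure A E x := by
  let x' : chartRing A E x := ⟨x, lrc_self_mem_chartRing x⟩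
  let P : Polynomial (chartRing A E x) := (X + C 256) ^ 3 - C x' * X ^ 2
  have hP : P.Monic := by
    refine lrc_monic_sub ((monic_X_add_C _).pow 3) (n := 3) (m := 2) ?_ ?_ (by norm_num)
    · rw [(monic_X_add_C (256 : chartRing A E x)).natDegree_pow, natDegree_X_add_C]
    · exact natDegree_C_mul_X_pow_le x' 2
  refine lrc_mem_chartClosure_of_root x T P hP ?_
  simp only [P, eval₂_sub, eval₂_pow, eval₂_add, eval₂_X, eval₂_C, eval₂_mul]
  rw [map_ofNat]
  show (T + 256) ^ 3 - x * T ^ 2 = 0
  rw [hrel, sub_self]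

/-- `T⁻¹ ∈ B(x)` from `x T² = (T + 256)³`, if `256` is invertible in `A`. -/
theorem lrc_two_inv_mem {x T : E} (hrel : x * T ^ 2 = (T + 256) ^ 3) (c : A)
    (hc : c * 256 = 1) (hT : T ≠ 0) : T⁻¹ ∈ chartClosure A E x := by
  let x' : chartRing A E x := ⟨x, lrc_self_mem_chartRing x⟩
  let c' : chartRing A E x := algebraMap A (chartRing A E x) c
  have hcE : algebraMap A E c * 256 = 1 := by
    have := congrArg (algebraMap A E) hc
    rwa [map_mul, map_ofNat, map_one] at this
  -- `v = 256 / T` is a root of `(X + 1)³ - (c x) X`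
  let P : Polynomial (chartRing A E x) := (X + C 1) ^ 3 - C (c' * x') * X ^ 1
  have hP : P.Monic := by
    refine lrc_monic_sub ((monic_X_add_C _).pow 3) (n := 3) (m := 1) ?_ ?_ (by norm_num)
    · rw [(monic_X_add_C (1 : chartRing A E x)).natDegree_pow, natDegree_X_add_C]
    · exact natDegree_C_mul_X_pow_le (c' * x') 1
  have hv : 256 * T⁻¹ ∈ chartClosure A E x := by
    refine lrc_mem_chartClosure_of_root x _ P hP ?_
    simp only [P, eval₂_sub, eval₂_pow, eval₂_add, eval₂_X, eval₂_C, eval₂_mul, map_one,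
      map_mul, pow_one, eval₂_one]
    show (256 * T⁻¹ + 1) ^ 3 - algebraMap A E c * x * (256 * T⁻¹) = 0
    have hvT : 256 * T⁻¹ * T = 256 := by
      rw [mul_assoc, inv_mul_cancel₀ hT, mul_one]
    have h3 : T ^ 3 * ((256 * T⁻¹ + 1) ^ 3 - algebraMap A E c * x * (256 * T⁻¹)) = 0 := by
      linear_combination (-1 : E) * hrel
        + ((256 * T⁻¹ * T + T) ^ 2 + (256 * T⁻¹ * T + T) * (256 + T) + (256 + T) ^ 2
            - x * T ^ 2 * algebraMap A E c) * hvT
        - x * T ^ 2 * hcE
    rcases mul_eq_zero.1 h3 with h | h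
    · exact absurd (pow_eq_zero_iff (by norm_num) |>.1 h) hT
    · exact h
  have e : T⁻¹ = algebraMap A E c * (256 * T⁻¹) := by
    rw [← mul_assoc, hcE, one_mul]
  rw [e]
  exact (chartClosure A E x).mul_mem ((chartClosure A E x).algebraMap_mem c) hv

/-- `T ≠ 0` from the relation, if `256` is invertible in `A`. -/
theorem lrc_two_ne_zero {x T : E} (hrel : x * T ^ 2 = (T + 256) ^ 3) (c : A)
    (hc : c * 256 = 1) : T ≠ 0 := by
  intro hT
  have hcE : algebraMap A E c * 256 = 1 := by
    have := congrArg (algebraMap A E) hc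
    rwa [map_mul, map_ofNat, map_one] at this
  rw [hT] at hrel
  have h256 : (256 : E) = 0 := by
    have : (256 : E) ^ 3 = 0 := by
      have := hrel.symm
      simpa using this
    exact pow_eq_zero_iff (by norm_num) |>.1 this
  rw [h256, mul_zero] at hcE
  exact zero_ne_one hcE

/-- `T² x ∈ B(T)` from the relation. -/
theorem lrc_two_pow_mul_mem {x T : E} (hrel : x * T ^ 2 = (T + 256) ^ 3) :
    T ^ 2 * x ∈ chartClosure A E T := by
  have e : T ^ 2 * x = (T + 256) ^ 3 := by rw [mul_comm, hrel]
  rw [e]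
  refine (chartClosure A E T).pow_mem ((chartClosure A E T).add_mem
    (lrc_self_mem_chartClosure T) ?_) 3
  have : (256 : E) = algebraMap A E 256 := (map_ofNat _ _).symm
  rw [this]
  exact (chartClosure A E T).algebraMap_mem _

/-! ### level 3 -/

/-- `T ∈ B(x)` from `x T³ = (T + 27)(T + 243)³`. -/
theorem lrc_three_mem {x T : E} (hrel : x * T ^ 3 = (T + 27) * (T + 243) ^ 3) :
    T ∈ chartClosure A E x := by
  let x' : chartRing A E x := ⟨x, lrc_self_mem_chartRing x⟩
  let P : Polynomial (chartRing A E x) := (X + C 27) * (X + C 243) ^ 3 - C x' * X ^ 3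
  have hP : P.Monic := by
    refine lrc_monic_sub ((monic_X_add_C _).mul ((monic_X_add_C _).pow 3)) (n := 4) (m := 3)
      ?_ ?_ (by norm_num)
    · rw [(monic_X_add_C (27 : chartRing A E x)).natDegree_mul
        ((monic_X_add_C (243 : chartRing A E x)).pow 3),
        (monic_X_add_C (243 : chartRing A E x)).natDegree_pow, natDegree_X_add_C,
        natDegree_X_add_C]
    · exact natDegree_C_mul_X_pow_le x' 3
  refine lrc_mem_chartClosure_of_root x T P hP ?_
  simp only [P, eval₂_sub, eval₂_pow, eval₂_add, eval₂_X, eval₂_C, eval₂_mul]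
  rw [map_ofNat, map_ofNat]
  show (T + 27) * (T + 243) ^ 3 - x * T ^ 3 = 0
  rw [hrel, sub_self]

/-- `T⁻¹ ∈ B(x)` from `x T³ = (T + 27)(T + 243)³`, if `27` is invertible in `A`. -/
theorem lrc_three_inv_mem {x T : E} (hrel : x * T ^ 3 = (T + 27) * (T + 243) ^ 3) (c : A)
    (hc : c * 27 = 1) (hT : T ≠ 0) : T⁻¹ ∈ chartClosure A E x := by
  let x' : chartRing A E x := ⟨x, lrc_self_mem_chartRing x⟩
  let c' : chartRing A E x := algebraMap A (chartRing A E x) c
  have hcE : algebraMap A E c * 27 = 1 := by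
    have := congrArg (algebraMap A E) hc
    rwa [map_mul, map_ofNat, map_one] at this
  -- `v = 243 / T` is a root of `(X + 9)(X + 1)³ - (c x) X`
  let P : Polynomial (chartRing A E x) := (X + C 9) * (X + C 1) ^ 3 - C (c' * x') * X ^ 1
  have hP : P.Monic := by
    refine lrc_monic_sub ((monic_X_add_C _).mul ((monic_X_add_C _).pow 3)) (n := 4) (m := 1)
      ?_ ?_ (by norm_num)
    · rw [(monic_X_add_C (9 : chartRing A E x)).natDegree_mul
        ((monic_X_add_C (1 : chartRing A E x)).pow 3),
        (monic_X_add_C (1 : chartRing A E x)).natDegree_pow, natDegree_X_add_C,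
        natDegree_X_add_C]
    · exact natDegree_C_mul_X_pow_le (c' * x') 1
  have hv : 243 * T⁻¹ ∈ chartClosure A E x := by
    refine lrc_mem_chartClosure_of_root x _ P hP ?_
    simp only [P, eval₂_sub, eval₂_pow, eval₂_add, eval₂_X, eval₂_C, eval₂_mul, map_one,
      map_mul, pow_one, eval₂_one]
    rw [map_ofNat]
    show (243 * T⁻¹ + 9) * (243 * T⁻¹ + 1) ^ 3 - algebraMap A E c * x * (243 * T⁻¹) = 0
    have hvT : 243 * T⁻¹ * T = 243 := by
      rw [mul_assoc, inv_mul_cancel₀ hT, mul_one]
    have h4 : T ^ 4 * ((243 * T⁻¹ + 9) * (243 * T⁻¹ + 1) ^ 3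
        - algebraMap A E c * x * (243 * T⁻¹)) = 9 * ((T + 27) * (T + 243) ^ 3 - x * T ^ 3) := by
      have h1 : T ^ 4 * ((243 * T⁻¹ + 9) * (243 * T⁻¹ + 1) ^ 3
          - algebraMap A E c * x * (243 * T⁻¹))
          = (243 * T⁻¹ * T + 9 * T) * (243 * T⁻¹ * T + T) ^ 3
            - algebraMap A E c * x * (243 * T⁻¹ * T) * T ^ 3 := by ring
      rw [h1, hvT]
      linear_combination (-9 : E) * x * T ^ 3 * hcE
    rw [hrel, sub_self, mul_zero] at h4
    rcases mul_eq_zero.1 h4 with h | h
    · exact absurd (pow_eq_zero_iff (by norm_num) |>.1 h) hT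
    · exact h
  have e : T⁻¹ = algebraMap A E c * (algebraMap A E c * 3) * (243 * T⁻¹) := by
    have h243 : algebraMap A E c * (algebraMap A E c * 3) * 243 = 1 := by
      linear_combination (algebraMap A E c * 27 + 1) * hcE
    calc T⁻¹ = (algebraMap A E c * (algebraMap A E c * 3) * 243) * T⁻¹ := by
          rw [h243, one_mul]
      _ = _ := by ring
  rw [e]
  refine (chartClosure A E x).mul_mem ((chartClosure A E x).mul_mem
    ((chartClosure A E x).algebraMap_mem c) ((chartClosure A E x).mul_mem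
      ((chartClosure A E x).algebraMap_mem c) ?_)) hv
  have : (3 : E) = algebraMap A E 3 := (map_ofNat _ _).symm
  rw [this]
  exact (chartClosure A E x).algebraMap_mem _

/-- `T ≠ 0` from the relation, if `27` is invertible in `A`. -/
theorem lrc_three_ne_zero {x T : E} (hrel : x * T ^ 3 = (T + 27) * (T + 243) ^ 3) (c : A)
    (hc : c * 27 = 1) : T ≠ 0 := by
  intro hT
  have hcE : algebraMap A E c * 27 = 1 := by
    have := congrArg (algebraMap A E) hc
    rwa [map_mul, map_ofNat, map_one] at this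
  rw [hT] at hrel
  have h0 : (27 : E) * 243 ^ 3 = 0 := by
    have := hrel.symm
    simpa using this
  have h27 : (27 : E) = 0 := by
    rcases mul_eq_zero.1 h0 with h | h
    · exact h
    · have h243 : (243 : E) = 0 := pow_eq_zero_iff (by norm_num) |>.1 h
      have : (243 : E) = 27 * 9 := by norm_num
      rw [this] at h243
      rcases mul_eq_zero.1 h243 with h' | h'
      · exact h'
      · have : (27 : E) = 9 * 3 := by norm_num
        rw [this, h', zero_mul]
  rw [h27, mul_zero] at hcE
  exact zero_ne_one hcE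

/-- `T³ x ∈ B(T)` from the relation. -/
theorem lrc_three_pow_mul_mem {x T : E} (hrel : x * T ^ 3 = (T + 27) * (T + 243) ^ 3) :
    T ^ 3 * x ∈ chartClosure A E T := by
  have e : T ^ 3 * x = (T + 27) * (T + 243) ^ 3 := by rw [mul_comm, hrel]
  rw [e]
  have h27 : (27 : E) ∈ chartClosure A E T := by
    have : (27 : E) = algebraMap A E 27 := (map_ofNat _ _).symm
    rw [this]
    exact (chartClosure A E T).algebraMap_mem _
  have h243 : (243 : E) ∈ chartClosure A E T := by
    have : (243 : E) = algebraMap A E 243 := (map_ofNat _ _).symm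
    rw [this]
    exact (chartClosure A E T).algebraMap_mem _
  exact (chartClosure A E T).mul_mem
    ((chartClosure A E T).add_mem (lrc_self_mem_chartClosure T) h27)
    ((chartClosure A E T).pow_mem
      ((chartClosure A E T).add_mem (lrc_self_mem_chartClosure T) h243) 3)

end Rel

section RegRel

variable {A : Type} [CommRing A] [IsDomain A] [IsDiscreteValuationRing A]
  {E : Type} [Field E] [Algebra A E]

/-- **Chart change along `x T² = (T + 256)³`** (`256` invertible in `A`): REG in the chart `T`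
implies REG in the chart `x`. -/
theorem regChart_of_rel_two (ϖ : A) (hϖ : Irreducible ϖ) {x T : E}
    (hrel : x * T ^ 2 = (T + 256) ^ 3) (c : A) (hc : c * 256 = 1)
    (hreg : RegChart ϖ T) : RegChart ϖ x :=
  regChart_of_chartChange ϖ hϖ (y := x) (y' := T) (d := T) (lrc_two_mem hrel)
    (lrc_self_mem_chartClosure T) (lrc_two_inv_mem hrel c hc (lrc_two_ne_zero hrel c hc))
    (lrc_two_ne_zero hrel c hc) (n := 2) (lrc_two_pow_mul_mem hrel) hreg

/-- **Chart change along `x T³ = (T + 27)(T + 243)³`** (`27` invertible in `A`): REG in the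
chart `T` implies REG in the chart `x`. -/
theorem regChart_of_rel_three (ϖ : A) (hϖ : Irreducible ϖ) {x T : E}
    (hrel : x * T ^ 3 = (T + 27) * (T + 243) ^ 3) (c : A) (hc : c * 27 = 1)
    (hreg : RegChart ϖ T) : RegChart ϖ x :=
  regChart_of_chartChange ϖ hϖ (y := x) (y' := T) (d := T) (lrc_three_mem hrel)
    (lrc_self_mem_chartClosure T) (lrc_three_inv_mem hrel c hc (lrc_three_ne_zero hrel c hc))
    (lrc_three_ne_zero hrel c hc) (n := 3) (lrc_three_pow_mul_mem hrel) hreg

end RegRel

end Fermat.Agent.H9.SS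

end
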