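/-
P-SS / row 1050 SSH-19 LEVELREG-CHART (helper9): chart change `t₂ → j` and `t₃ → j` for the
level-`M` regularity statement `Fermat.Agent.H41.SS.ModelLevelRegStatement`.

* `modelLevelReg_j_of_t2S` : for a prime `q ≠ 2` and `2 ∣ M`:
    `ModelLevelRegStatement M q (t2S ℚ) R → ModelLevelRegStatement M q jq R`;
* `modelLevelReg_j_of_t3`  : for a prime `q ≠ 3` and `3 ∣ M`:
    `ModelLevelRegStatement M q (t3 ℚ) R → ModelLevelRegStatement M q jq R`.

(`t2S = Fermat.Agent.H17.ESD.t2S`, `j t₂² = (t₂ + 256)³`; `t3 = Fermat.Agent.H1.ESD.t3`,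
`j t₃³ = (t₃ + 27)(t₃ + 243)³`.)  The abstract chart change is
`Fermat.Agent.H9.SS.regChart_of_chartChange`.
-/
import Mathlib
import Fermat.Agent.H9.SS.ChartRel
import Fermat.Agent.H41.SS.OrdInterfaces
import Fermat.Agent.H17.ESD.T2Model
import Fermat.Agent.H27.KLGB.T3Any

set_option autoImplicit false

noncomputable section

namespace Fermat.Agent.H9.SS

open Polynomial ModularCurve AlgebraicCurve
open Fermat.Agent.H22.KL

/-- `coeffEmb K₁ jq = jqModC K₁` -/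
theorem lrc_coeffEmb_jq (K₁ : Type) [Field K₁] [Algebra ℚ K₁] :
    coeffEmb K₁ jq = jqModC K₁ := by
  rw [coeffEmb, ← jqModC_rat, coeffMap_jqModC]

/-- **chart change `t₂ → j`** for level-`M` regularity (`q` odd, `2 ∣ M`). -/
theorem modelLevelReg_j_of_t2S (M q : ℕ) [NeZero M] (hq : q.Prime) (hq2 : q ≠ 2) (h2 : 2 ∣ M)
    (R : ℕ)
    (h : Fermat.Agent.H41.SS.ModelLevelRegStatement M q (Fermat.Agent.H17.ESD.t2S ℚ) R) :
    Fermat.Agent.H41.SS.ModelLevelRegStatement M q jq R := by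
  intro K₁ _ _ _ A₀ _ _ _ _ _ _ _ hqA hζ ϖ hϖ x hx
  -- the coordinate `t₂` in the model field
  let T : ModelField K₁ M := ⟨coeffEmb K₁ (Fermat.Agent.H17.ESD.t2S ℚ),
    coeffEmb_mem_laurentBaseChange K₁ (Fermat.Agent.H17.ESD.t2S_rat_mem M h2)⟩
  have hT : RegChart ϖ T := h K₁ A₀ hqA hζ ϖ hϖ T rfl
  -- the relation
  have hrel : x * T ^ 2 = (T + 256) ^ 3 := by
    apply Subtype.ext
    have h1 := Fermat.Agent.H17.ESD.t2S_identity K₁
    rw [← lrc_coeffEmb_jq, ← Fermat.Agent.H17.ESD.coeffEmb_t2S K₁] at h1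
    rw [← hx] at h1
    push_cast
    exact h1
  -- `256` is a unit of `A₀`
  have hcop : Nat.Coprime q 256 := by
    have : (256 : ℕ) = 2 ^ 8 := by norm_num
    rw [this]
    exact Nat.Coprime.pow_right 8 ((Nat.coprime_primes hq Nat.prime_two).2 hq2)
  obtain ⟨u, hu⟩ := lrc_isUnit_natCast_of_coprime (A := A₀) hcop hqA
  have hc : (↑u⁻¹ : A₀) * 256 = 1 := by
    have : ((256 : ℕ) : A₀) = 256 := by norm_num
    rw [← this, ← hu]
    exact u.inv_mul
  exact regChart_of_rel_two ϖ hϖ hrel _ hc hT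

/-- **chart change `t₃ → j`** for level-`M` regularity (`q ≠ 3`, `3 ∣ M`). -/
theorem modelLevelReg_j_of_t3 (M q : ℕ) [NeZero M] (hq : q.Prime) (hq3 : q ≠ 3) (h3 : 3 ∣ M)
    (R : ℕ)
    (h : Fermat.Agent.H41.SS.ModelLevelRegStatement M q (Fermat.Agent.H1.ESD.t3 ℚ) R) :
    Fermat.Agent.H41.SS.ModelLevelRegStatement M q jq R := by
  intro K₁ _ _ _ A₀ _ _ _ _ _ _ _ hqA hζ ϖ hϖ x hx
  let T : ModelField K₁ M := ⟨coeffEmb K₁ (Fermat.Agent.H1.ESD.t3 ℚ),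
    coeffEmb_mem_laurentBaseChange K₁ (Fermat.Agent.H27.KLGB.t3_mem_full_rat M h3)⟩
  have hT : RegChart ϖ T := h K₁ A₀ hqA hζ ϖ hϖ T rfl
  have hrel : x * T ^ 3 = (T + 27) * (T + 243) ^ 3 := by
    apply Subtype.ext
    have h1 := Fermat.Agent.H1.ESD.t3_rel K₁
    have h2 : coeffEmb K₁ (Fermat.Agent.H1.ESD.t3 ℚ) = Fermat.Agent.H1.ESD.t3 K₁ := by
      rw [coeffEmb, Fermat.Agent.H1.ESD.coeffMap_t3]
    rw [← lrc_coeffEmb_jq, ← h2] at h1
    rw [← hx] at h1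
    push_cast
    exact h1
  have hcop : Nat.Coprime q 27 := by
    have : (27 : ℕ) = 3 ^ 3 := by norm_num
    rw [this]
    exact Nat.Coprime.pow_right 3 ((Nat.coprime_primes hq Nat.prime_three).2 hq3)
  obtain ⟨u, hu⟩ := lrc_isUnit_natCast_of_coprime (A := A₀) hcop hqA
  have hc : (↑u⁻¹ : A₀) * 27 = 1 := by
    have : ((27 : ℕ) : A₀) = 27 := by norm_num
    rw [← this, ← hu]
    exact u.inv_mul
  exact regChart_of_rel_three ϖ hϖ hrel _ hc hT

end Fermat.Agent.H9.SS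

end
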