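/-
P-SS / row 1050 SSH-19 LEVELREG-CHART (helper9), abstract part (Mathlib + the chart language of
`Fermat.Agent.H22.KL`).

`A` a discrete valuation ring with uniformiser `ϖ`, `E` a field containing `A`.  For a chart
`y : E` put `B(y) = chartClosure A E y` (integral closure of `A[y]` in `E`) and

  `RegChart ϖ y` :  every maximal ideal `𝔫 ∋ ϖ` of `B(y)` is locally generated by `ϖ` and one
                    more element `U`

(verbatim the conclusion of `Fermat.Agent.H41.SS.ModelLevelRegStatement`).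

**Chart change** (`regChart_of_chartChange`): if `y' ∈ B(y)`, `d ∈ B(y')`, `d ≠ 0`,
`d⁻¹ ∈ B(y)` and `d ^ n * y ∈ B(y')` for some `n` (so that `B(y) = B(y')[1/d]`), then
`RegChart ϖ y' → RegChart ϖ y`.

Ingredients:
* `lrc_chartClosure_le`     : `y' ∈ B(y) → B(y') ≤ B(y)`;
* `lrc_exists_pow_mul_mem`  : every `z ∈ B(y)` has `d ^ k * z ∈ B(y')` for some `k`;
* `lrc_isIntegral_quot`     : the residue field of a maximal ideal `𝔫 ∋ ϖ` of `B(y)` is integral
                              over `A` (Zariski's lemma for `A/ϖ`);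
* `lrc_comap_isMaximal`     : hence the contraction of `𝔫` to `B(y')` is maximal.
-/
import Mathlib
import Fermat.Agent.H22.ES.KLSetting

set_option autoImplicit false

noncomputable section

namespace Fermat.Agent.H9.SS

open Polynomial
open Fermat.Agent.H22.KL

section Basic

variable {A : Type} [CommRing A] {E : Type} [Field E] [Algebra A E]

/-- membership in `B(y)` is integrality over `A[y]` -/
theorem lrc_mem_chartClosure_iff (y z : E) :
    z ∈ chartClosure A E y ↔ IsIntegral (chartRing A E y) z :=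
  Iff.rfl

theorem lrc_self_mem_chartRing (y : E) : y ∈ chartRing A E y :=
  Algebra.subset_adjoin (Set.mem_singleton y)

/-- `A[y] ⊆ B(y)` -/
theorem lrc_chartRing_le_chartClosure (y : E) : chartRing A E y ≤ chartClosure A E y := by
  intro z hz
  rw [lrc_mem_chartClosure_iff]
  exact isIntegral_algebraMap (R := chartRing A E y) (A := E) (x := ⟨z, hz⟩)

theorem lrc_self_mem_chartClosure (y : E) : y ∈ chartClosure A E y :=
  lrc_chartRing_le_chartClosure y (lrc_self_mem_chartRing y)

/-- An element integral over a subalgebra `S ≤ B(y)` lies in `B(y)`. -/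
theorem lrc_mem_of_isIntegral_of_le (y : E) (S : Subalgebra A E) (hS : S ≤ chartClosure A E y)
    (z : E) (hz : IsIntegral S z) : z ∈ chartClosure A E y := by
  rw [lrc_mem_chartClosure_iff]
  -- `z` is integral over the integral closure of `A[y]`
  have h1 : IsIntegral (integralClosure (chartRing A E y) E) z := by
    obtain ⟨p, hp, hpz⟩ := hz
    let φ : S →+* integralClosure (chartRing A E y) E :=
      { toFun := fun s => ⟨s.1, hS s.2⟩
        map_one' := rfl
        map_mul' := fun _ _ => rfl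
        map_zero' := rfl
        map_add' := fun _ _ => rfl }
    refine ⟨p.map φ, hp.map φ, ?_⟩
    rw [Polynomial.eval₂_map]
    exact hpz
  exact isIntegral_trans z h1

/-- `y' ∈ B(y) → B(y') ≤ B(y)`. -/
theorem lrc_chartClosure_le {y y' : E} (hy' : y' ∈ chartClosure A E y) :
    chartClosure A E y' ≤ chartClosure A E y := by
  intro z hz
  have hle : chartRing A E y' ≤ chartClosure A E y :=
    Algebra.adjoin_le (by
      intro w hw
      rw [Set.mem_singleton_iff] at hw
      rw [hw]; exact hy')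
  exact lrc_mem_of_isIntegral_of_le y (chartRing A E y') hle z hz

end Basic

section PowMul

variable {A : Type} [CommRing A] {E : Type} [Field E] [Algebra A E]

/-- If `d ∈ S` and `d ^ k * c ∈ S` then `d ^ l * c ∈ S` for all `l ≥ k`. -/
theorem lrc_pow_mul_mem_of_le (S : Subalgebra A E) {d c : E} (hd : d ∈ S) {k l : ℕ}
    (hkl : k ≤ l) (h : d ^ k * c ∈ S) : d ^ l * c ∈ S := by
  obtain ⟨m, rfl⟩ := Nat.exists_eq_add_of_le hkl
  have : d ^ (k + m) * c = d ^ m * (d ^ k * c) := by ring
  rw [this]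
  exact S.mul_mem (S.pow_mem hd m) h

/-- Every element of `A[y]` becomes an element of `B(y')` after multiplication by a power of
`d`, if `d ∈ B(y')` and `d ^ n * y ∈ B(y')`. -/
theorem lrc_exists_pow_mul_mem_chartRing {y y' d : E} (hd : d ∈ chartClosure A E y')
    {n : ℕ} (hdy : d ^ n * y ∈ chartClosure A E y') (c : E) (hc : c ∈ chartRing A E y) :
    ∃ k : ℕ, d ^ k * c ∈ chartClosure A E y' := by
  induction hc using Algebra.adjoin_induction with
  | mem x hx =>
    rw [Set.mem_singleton_iff] at hx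
    exact ⟨n, by rw [hx]; exact hdy⟩
  | algebraMap a =>
    exact ⟨0, by simpa using (chartClosure A E y').algebraMap_mem a⟩
  | add x₁ x₂ _ _ h₁ h₂ =>
    obtain ⟨k₁, h₁⟩ := h₁
    obtain ⟨k₂, h₂⟩ := h₂
    refine ⟨k₁ + k₂, ?_⟩
    have e : d ^ (k₁ + k₂) * (x₁ + x₂) = d ^ k₂ * (d ^ k₁ * x₁) + d ^ k₁ * (d ^ k₂ * x₂) := by
      ring
    rw [e]
    exact (chartClosure A E y').add_mem
      ((chartClosure A E y').mul_mem ((chartClosure A E y').pow_mem hd _) h₁)
      ((chartClosure A E y').mul_mem ((chartClosure A E y').pow_mem hd _) h₂)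
  | mul x₁ x₂ _ _ h₁ h₂ =>
    obtain ⟨k₁, h₁⟩ := h₁
    obtain ⟨k₂, h₂⟩ := h₂
    refine ⟨k₁ + k₂, ?_⟩
    have e : d ^ (k₁ + k₂) * (x₁ * x₂) = (d ^ k₁ * x₁) * (d ^ k₂ * x₂) := by ring
    rw [e]
    exact (chartClosure A E y').mul_mem h₁ h₂

/-- `B(y) ⊆ B(y')[1/d]`: every `z ∈ B(y)` has `d ^ k * z ∈ B(y')` for some `k`. -/
theorem lrc_exists_pow_mul_mem {y y' d : E} (hd : d ∈ chartClosure A E y')
    {n : ℕ} (hdy : d ^ n * y ∈ chartClosure A E y') (z : E) (hz : z ∈ chartClosure A E y) :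
    ∃ k : ℕ, d ^ k * z ∈ chartClosure A E y' := by
  classical
  obtain ⟨p, hp, hpz⟩ := (lrc_mem_chartClosure_iff y z).1 hz
  -- a uniform exponent for the coefficients
  have hcoef : ∀ i : ℕ, ∃ k : ℕ, d ^ k * ((p.coeff i : chartRing A E y) : E) ∈
      chartClosure A E y' := fun i =>
    lrc_exists_pow_mul_mem_chartRing hd hdy _ (p.coeff i).2
  choose κ hκ using hcoef
  set N : ℕ := (Finset.range (p.natDegree + 1)).sup κ with hN
  have hN' : ∀ i : ℕ, d ^ N * ((p.coeff i : chartRing A E y) : E) ∈ chartClosure A E y' := by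
    intro i
    by_cases hi : i ≤ p.natDegree
    · have hle : κ i ≤ N := Finset.le_sup (f := κ) (Finset.mem_range.2 (Nat.lt_succ_of_le hi))
      exact lrc_pow_mul_mem_of_le _ hd hle (hκ i)
    · have : p.coeff i = 0 := Polynomial.coeff_eq_zero_of_natDegree_lt (not_le.1 hi)
      rw [this]
      simpa using (chartClosure A E y').zero_mem
  refine ⟨N, ?_⟩
  -- the scaled polynomial
  set q : Polynomial E := p.map (algebraMap (chartRing A E y) E) with hq
  have hqm : q.Monic := hp.map _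
  have hqz : Polynomial.eval₂ (RingHom.id E) z q = 0 := by
    rw [hq, Polynomial.eval₂_map]
    simpa using hpz
  set r : Polynomial E := Polynomial.scaleRoots q (d ^ N) with hr
  have hrm : r.Monic := (Polynomial.monic_scaleRoots_iff _).2 hqm
  have hrz : Polynomial.eval₂ (RingHom.id E) (d ^ N * z) r = 0 := by
    have := Polynomial.scaleRoots_eval₂_eq_zero (p := q) (RingHom.id E) (r := z) (s := d ^ N) hqz
    simpa using this
  -- its coefficients lie in `B(y')`
  have hnat : q.natDegree = p.natDegree := by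
    rw [hq]
    exact hp.natDegree_map _
  have hrc : ∀ i : ℕ, r.coeff i ∈ chartClosure A E y' := by
    intro i
    rw [hr, Polynomial.coeff_scaleRoots, hq, Polynomial.coeff_map, ← hq, hnat]
    rcases lt_trichotomy i p.natDegree with hi | hi | hi
    · obtain ⟨m, hm⟩ : ∃ m, p.natDegree - i = m + 1 :=
        ⟨p.natDegree - i - 1, by omega⟩
      rw [hm, pow_succ]
      have e : (algebraMap (chartRing A E y) E) (p.coeff i) * ((d ^ N) ^ m * d ^ N)
          = (d ^ N * ((p.coeff i : chartRing A E y) : E)) * (d ^ N) ^ m := by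
        show ((p.coeff i : chartRing A E y) : E) * ((d ^ N) ^ m * d ^ N) = _
        ring
      rw [e]
      exact (chartClosure A E y').mul_mem (hN' i)
        ((chartClosure A E y').pow_mem ((chartClosure A E y').pow_mem hd _) _)
    · rw [hi, Nat.sub_self, pow_zero, mul_one]
      have : p.coeff p.natDegree = 1 := hp
      rw [this]
      simpa using (chartClosure A E y').one_mem
    · have : p.coeff i = 0 := Polynomial.coeff_eq_zero_of_natDegree_lt hi
      rw [this]
      simpa using (chartClosure A E y').zero_mem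
  -- lift `r` to a monic polynomial over `B(y')`
  have hlift : r ∈ Polynomial.lifts (algebraMap (chartClosure A E y') E) := by
    rw [Polynomial.lifts_iff_coeff_lifts]
    intro i
    exact ⟨⟨r.coeff i, hrc i⟩, rfl⟩
  obtain ⟨r', hr'map, -, hr'm⟩ := Polynomial.lifts_and_natDegree_eq_and_monic hlift hrm
  have hint : IsIntegral (chartClosure A E y') (d ^ N * z) := by
    refine ⟨r', hr'm, ?_⟩
    have := hrz
    rw [← hr'map, Polynomial.eval₂_map] at this
    simpa using this
  exact lrc_mem_of_isIntegral_of_le y' (chartClosure A E y') le_rfl _ hint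

end PowMul

section Maximal

variable {A : Type} [CommRing A] [IsDomain A] [IsDiscreteValuationRing A]
  {E : Type} [Field E] [Algebra A E]

/-- The inclusion `A[y] → B(y)` is integral. -/
theorem lrc_inclusion_isIntegral (y : E) :
    (Subalgebra.inclusion (lrc_chartRing_le_chartClosure (A := A) y)).toRingHom.IsIntegral := by
  intro s
  obtain ⟨p, hp, hps⟩ := (lrc_mem_chartClosure_iff y (s : E)).1 s.2
  refine ⟨p, hp, ?_⟩
  apply Subtype.ext
  have h := Polynomial.hom_eval₂ p
    (Subalgebra.inclusion (lrc_chartRing_le_chartClosure (A := A) y)).toRingHom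
    ((chartClosure A E y).val.toRingHom) s
  have h2 : ((chartClosure A E y).val.toRingHom).comp
      (Subalgebra.inclusion (lrc_chartRing_le_chartClosure (A := A) y)).toRingHom
      = algebraMap (chartRing A E y) E := by
    ext x
    rfl
  rw [h2] at h
  show (chartClosure A E y).val.toRingHom _ = _
  rw [h]
  exact hps

/-- **Zariski's lemma in the chart**: the residue field of a maximal ideal `𝔫 ∋ ϖ` of `B(y)` is
integral over `A`. -/
theorem lrc_isIntegral_quot (ϖ : A) (hϖ : Irreducible ϖ) (y : E)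
    (𝔫 : Ideal (chartClosure A E y)) [h𝔫 : 𝔫.IsMaximal]
    (hϖ𝔫 : algebraMap A (chartClosure A E y) ϖ ∈ 𝔫) :
    ((Ideal.Quotient.mk 𝔫).comp (algebraMap A (chartClosure A E y))).IsIntegral := by
  classical
  let j : chartRing A E y →+* chartClosure A E y :=
    (Subalgebra.inclusion (lrc_chartRing_le_chartClosure (A := A) y)).toRingHom
  have hj : j.IsIntegral := lrc_inclusion_isIntegral y
  have h1 : ((Ideal.Quotient.mk 𝔫).comp j).IsIntegral :=
    RingHom.IsIntegral.trans j (Ideal.Quotient.mk 𝔫) hj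
      (RingHom.isIntegral_of_surjective _ Ideal.Quotient.mk_surjective)
  letI : Field (chartClosure A E y ⧸ 𝔫) := Ideal.Quotient.field 𝔫
  let 𝔭 : Ideal (chartRing A E y) :=
    (⊥ : Ideal (chartClosure A E y ⧸ 𝔫)).comap ((Ideal.Quotient.mk 𝔫).comp j)
  have h𝔭 : 𝔭.IsMaximal :=
    Ideal.isMaximal_comap_of_isIntegral_of_isMaximal' ((Ideal.Quotient.mk 𝔫).comp j) h1 ⊥
  letI : Field (chartRing A E y ⧸ 𝔭) := Ideal.Quotient.field 𝔭
  have hmax : (Ideal.span {ϖ}).IsMaximal := PrincipalIdealRing.isMaximal_of_irreducible hϖ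
  letI : Field (A ⧸ Ideal.span {ϖ}) := Ideal.Quotient.field _
  let a1 : A →+* chartRing A E y ⧸ 𝔭 :=
    (Ideal.Quotient.mk 𝔭).comp (algebraMap A (chartRing A E y))
  have ha1ϖ : a1 ϖ = 0 := by
    show Ideal.Quotient.mk 𝔭 (algebraMap A (chartRing A E y) ϖ) = 0
    rw [Ideal.Quotient.eq_zero_iff_mem]
    show ((Ideal.Quotient.mk 𝔫).comp j) (algebraMap A (chartRing A E y) ϖ) ∈
      (⊥ : Ideal (chartClosure A E y ⧸ 𝔫))
    rw [Ideal.mem_bot]
    show Ideal.Quotient.mk 𝔫 (j (algebraMap A (chartRing A E y) ϖ)) = 0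
    rw [Ideal.Quotient.eq_zero_iff_mem]
    exact hϖ𝔫
  have ha1 : ∀ a ∈ Ideal.span {ϖ}, a1 a = 0 := by
    intro a ha
    obtain ⟨c, rfl⟩ := Ideal.mem_span_singleton'.1 ha
    rw [map_mul, ha1ϖ, mul_zero]
  let kk : (A ⧸ Ideal.span {ϖ}) →+* chartRing A E y ⧸ 𝔭 :=
    Ideal.Quotient.lift _ a1 ha1
  let ybar : chartRing A E y ⧸ 𝔭 := Ideal.Quotient.mk 𝔭 ⟨y, lrc_self_mem_chartRing y⟩
  let f : Polynomial (A ⧸ Ideal.span {ϖ}) →+* chartRing A E y ⧸ 𝔭 :=
    Polynomial.eval₂RingHom kk ybar
  have hf : Function.Surjective f := by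
    intro t
    obtain ⟨c, rfl⟩ := Ideal.Quotient.mk_surjective t
    obtain ⟨c, hc⟩ := c
    have hc' : c ∈ (Polynomial.aeval (R := A) y).range := by
      rw [← Algebra.adjoin_singleton_eq_range_aeval]
      exact hc
    obtain ⟨P, rfl⟩ := hc'
    refine ⟨P.map (Ideal.Quotient.mk (Ideal.span {ϖ})), ?_⟩
    show Polynomial.eval₂ kk ybar (P.map (Ideal.Quotient.mk (Ideal.span {ϖ}))) = _
    rw [Polynomial.eval₂_map]
    have hcomp : kk.comp (Ideal.Quotient.mk (Ideal.span {ϖ})) = a1 :=
      Ideal.Quotient.lift_comp_mk _ a1 ha1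
    rw [hcomp]
    have h := Polynomial.hom_eval₂ P (algebraMap A (chartRing A E y)) (Ideal.Quotient.mk 𝔭)
      (⟨y, lrc_self_mem_chartRing y⟩ : chartRing A E y)
    show Polynomial.eval₂ ((Ideal.Quotient.mk 𝔭).comp (algebraMap A (chartRing A E y)))
      (Ideal.Quotient.mk 𝔭 ⟨y, lrc_self_mem_chartRing y⟩) P = _
    rw [← h]
    congr 1
    apply Subtype.ext
    show ((Polynomial.eval₂ (algebraMap A (chartRing A E y))
      (⟨y, lrc_self_mem_chartRing y⟩ : chartRing A E y) P : chartRing A E y) : E) = _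
    have h3 := Polynomial.hom_eval₂ P (algebraMap A (chartRing A E y))
      ((chartRing A E y).val.toRingHom) (⟨y, lrc_self_mem_chartRing y⟩ : chartRing A E y)
    show (chartRing A E y).val.toRingHom _ = _
    rw [h3]
    rfl
  have hkk : kk.IsIntegral := by
    have h := Polynomial.comp_C_integral_of_surjective_of_isJacobsonRing f hf
    have e : f.comp Polynomial.C = kk := by
      ext a
      show Polynomial.eval₂ kk ybar (Polynomial.C a) = kk a
      rw [Polynomial.eval₂_C]
    rw [e] at h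
    exact h
  have ha1int : a1.IsIntegral := by
    have hcomp : kk.comp (Ideal.Quotient.mk (Ideal.span {ϖ})) = a1 :=
      Ideal.Quotient.lift_comp_mk _ a1 ha1
    rw [← hcomp]
    exact RingHom.IsIntegral.trans _ _
      (RingHom.isIntegral_of_surjective _ Ideal.Quotient.mk_surjective) hkk
  -- the induced map of residue fields
  have hker : ∀ a ∈ 𝔭, ((Ideal.Quotient.mk 𝔫).comp j) a = 0 := by
    intro a ha
    exact (Ideal.mem_bot).1 ha
  let ibar : chartRing A E y ⧸ 𝔭 →+* chartClosure A E y ⧸ 𝔫 :=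
    Ideal.Quotient.lift 𝔭 ((Ideal.Quotient.mk 𝔫).comp j) hker
  have hibar : ibar.IsIntegral := by
    apply RingHom.IsIntegral.tower_top (Ideal.Quotient.mk 𝔭) ibar
    have e : ibar.comp (Ideal.Quotient.mk 𝔭) = (Ideal.Quotient.mk 𝔫).comp j :=
      Ideal.Quotient.lift_comp_mk _ _ hker
    rw [e]
    exact h1
  have hg : (ibar.comp a1).IsIntegral := RingHom.IsIntegral.trans a1 ibar ha1int hibar
  have e : ibar.comp a1 = (Ideal.Quotient.mk 𝔫).comp (algebraMap A (chartClosure A E y)) := by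
    ext a
    rfl
  rw [← e]
  exact hg

/-- The contraction to `B(y')` of a maximal ideal `𝔫 ∋ ϖ` of `B(y)` is maximal. -/
theorem lrc_comap_isMaximal (ϖ : A) (hϖ : Irreducible ϖ) {y y' : E}
    (hy' : y' ∈ chartClosure A E y)
    (𝔫 : Ideal (chartClosure A E y)) [h𝔫 : 𝔫.IsMaximal]
    (hϖ𝔫 : algebraMap A (chartClosure A E y) ϖ ∈ 𝔫) :
    (𝔫.comap (Subalgebra.inclusion (lrc_chartClosure_le hy')).toRingHom).IsMaximal := by
  classical
  letI : Field (chartClosure A E y ⧸ 𝔫) := Ideal.Quotient.field 𝔫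
  set ι : chartClosure A E y' →+* chartClosure A E y :=
    (Subalgebra.inclusion (lrc_chartClosure_le hy')).toRingHom with hι
  have hg := lrc_isIntegral_quot ϖ hϖ y 𝔫 hϖ𝔫
  have e : (Ideal.Quotient.mk 𝔫).comp (algebraMap A (chartClosure A E y))
      = ((Ideal.Quotient.mk 𝔫).comp ι).comp (algebraMap A (chartClosure A E y')) := by
    ext a
    rfl
  rw [e] at hg
  have hι' : ((Ideal.Quotient.mk 𝔫).comp ι).IsIntegral :=
    RingHom.IsIntegral.tower_top _ _ hg
  have hmax := Ideal.isMaximal_comap_of_isIntegral_of_isMaximal'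
    ((Ideal.Quotient.mk 𝔫).comp ι) hι' ⊥
  have e2 : (⊥ : Ideal (chartClosure A E y ⧸ 𝔫)).comap ((Ideal.Quotient.mk 𝔫).comp ι)
      = 𝔫.comap ι := by
    rw [← Ideal.comap_comap]
    congr 1
    rw [← RingHom.ker_eq_comap_bot, Ideal.mk_ker]
  rw [e2] at hmax
  exact hmax

end Maximal

section Reg

variable {A : Type} [CommRing A] [IsDomain A] [IsDiscreteValuationRing A]
  {E : Type} [Field E] [Algebra A E]

/-- **REG in the chart `y`**: every maximal ideal `𝔫 ∋ ϖ` of `B(y)` is generated by `ϖ` and one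
more element after localisation at `𝔫` (the conclusion of
`Fermat.Agent.H41.SS.ModelLevelRegStatement`, verbatim). -/
def RegChart (ϖ : A) (y : E) : Prop :=
  ∀ 𝔫 : Ideal (chartClosure A E y), 𝔫.IsMaximal →
    algebraMap A (chartClosure A E y) ϖ ∈ 𝔫 →
    ∃ U : chartClosure A E y, U ∈ 𝔫 ∧
      ∀ z ∈ 𝔫, ∃ s, s ∉ 𝔫 ∧ ∃ b₁ b₂ : chartClosure A E y,
        s * z = algebraMap A (chartClosure A E y) ϖ * b₁ + U * b₂

/-- **Chart change for REG.**  If `y' ∈ B(y)`, `d ∈ B(y')`, `d⁻¹ ∈ B(y)`, `d ≠ 0` and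
`d ^ n * y ∈ B(y')` (so that `B(y) = B(y')[1/d]`), then REG in the chart `y'` implies REG in the
chart `y`. -/
theorem regChart_of_chartChange (ϖ : A) (hϖ : Irreducible ϖ) {y y' d : E}
    (hy' : y' ∈ chartClosure A E y) (hd : d ∈ chartClosure A E y')
    (hdinv : d⁻¹ ∈ chartClosure A E y) (hd0 : d ≠ 0) {n : ℕ}
    (hdy : d ^ n * y ∈ chartClosure A E y')
    (hreg : RegChart ϖ y') : RegChart ϖ y := by
  intro 𝔫 h𝔫 hϖ𝔫
  haveI := h𝔫
  have hmax := lrc_comap_isMaximal ϖ hϖ hy' 𝔫 hϖ𝔫
  set ι : chartClosure A E y' →+* chartClosure A E y :=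
    (Subalgebra.inclusion (lrc_chartClosure_le hy')).toRingHom with hι
  have hϖ' : algebraMap A (chartClosure A E y') ϖ ∈ 𝔫.comap ι := by
    rw [Ideal.mem_comap]
    exact hϖ𝔫
  obtain ⟨U', hU', hgen⟩ := hreg _ hmax hϖ'
  refine ⟨ι U', Ideal.mem_comap.1 hU', ?_⟩
  intro z hz
  obtain ⟨k, hk⟩ := lrc_exists_pow_mul_mem hd hdy (z : E) z.2
  let z' : chartClosure A E y' := ⟨d ^ k * z, hk⟩
  let dS : chartClosure A E y := ⟨d, lrc_chartClosure_le hy' hd⟩
  have hιz' : ι z' = dS ^ k * z := by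
    apply Subtype.ext
    show d ^ k * (z : E) = ((dS ^ k * z : chartClosure A E y) : E)
    rw [Subalgebra.coe_mul, Subalgebra.coe_pow]
  have hz' : z' ∈ 𝔫.comap ι := by
    rw [Ideal.mem_comap, hιz']
    exact 𝔫.mul_mem_left _ hz
  obtain ⟨s', hs', b₁, b₂, hsz⟩ := hgen z' hz'
  refine ⟨ι s' * dS ^ k, ?_, ι b₁, ι b₂, ?_⟩
  · intro hmem
    rcases h𝔫.isPrime.mem_or_mem hmem with h | h
    · exact hs' (Ideal.mem_comap.2 h)
    · have hdS : dS ∈ 𝔫 := h𝔫.isPrime.mem_of_pow_mem k h
      have h1 : (1 : chartClosure A E y) ∈ 𝔫 := by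
        have h2 := 𝔫.mul_mem_left (⟨d⁻¹, hdinv⟩ : chartClosure A E y) hdS
        have e : (⟨d⁻¹, hdinv⟩ : chartClosure A E y) * dS = 1 := by
          apply Subtype.ext
          show d⁻¹ * d = 1
          exact inv_mul_cancel₀ hd0
        rw [e] at h2
        exact h2
      exact h𝔫.ne_top ((Ideal.eq_top_iff_one _).2 h1)
  · calc ι s' * dS ^ k * z = ι s' * ι z' := by rw [hιz', mul_assoc]
      _ = ι (s' * z') := (map_mul ι _ _).symm
      _ = ι (algebraMap A (chartClosure A E y') ϖ * b₁ + U' * b₂) := by rw [hsz]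
      _ = algebraMap A (chartClosure A E y) ϖ * ι b₁ + ι U' * ι b₂ := by
          rw [map_add, map_mul, map_mul]
          rfl

end Reg

end Fermat.Agent.H9.SS

end
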